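import Fermat.Agent.BAD.Corr.X0Comp
import Fermat.Agent.RED.Spec.X0
import Fermat.Agent.RED.Spec.Final

/-!
# `T_l` in characteristic `p`

The reduced correspondence `T̄_l` on the field of level `M` in characteristic `p` is the reduction
of `T_l` of level `M` on divisor classes and, through the norm, of `T_l` of level `M p` at `∞`.
-/

set_option autoImplicit false
set_option linter.unusedSectionVars false

attribute [local instance 10000] SubalgebraClass.toAlgebra HahnSeries.powerSeriesAlgebra

noncomputable section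

open ModularCurve AlgebraicCurve

namespace Fermat.BAD.Corr

open Fermat.FF Fermat.MC Fermat.JAC Fermat.JAC.X0 Fermat.RED Fermat.RED.Model

local notation "Qb" => AlgebraicClosure ℚ

variable (k : Type*) [Field k] (M l : ℕ) [NeZero l]

/-- `q ↦ q ^ l` sends level `M` into level `M l`. -/
theorem qExpand_fullC_le :
    ∀ z ∈ modularFunctionFieldFullC k M, qExpand k l z ∈ modularFunctionFieldFullC k (M * l) :=
  fun _ hz => qExpand_mem_fullC hz

/-- The norm of `T̄_l`. -/
abbrev nbarM : modularFunctionFieldFullC k M → modularFunctionFieldFullC k M :=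
  nbar l (fullC_mono (dvd_mul_right M l)) (qExpand_fullC_le k M l)

section Curve

variable [IsAlgClosed k] [IsFunctionField k (modularFunctionFieldFullC k M)]
  [IsFunctionField k (modularFunctionFieldFullC k (M * l))]

/-- `T̄_l` on divisors. -/
abbrev tbarM :
    Divisor k (modularFunctionFieldFullC k M) →+ Divisor k (modularFunctionFieldFullC k M) :=
  tbar l (fullC_mono (dvd_mul_right M l)) (qExpand_fullC_le k M l)

/-- `T̄_l` on classes. -/
abbrev tbarMPic :
    Pic0 k (modularFunctionFieldFullC k M) →+ Pic0 k (modularFunctionFieldFullC k M) :=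
  tbarPic l (fullC_mono (dvd_mul_right M l)) (qExpand_fullC_le k M l)

end Curve

variable {k M l} {A : ValuationSubring (AlgebraicClosure ℚ)} {p : ℕ}
  (hp : p.Prime) (hA : A.LiesOverPrime p) (hl : l.Prime) (hlp : l ≠ p)
include hp hA hl hlp

/-- `M l` is invertible in the residue field. -/
theorem natCast_mul_ne_zero (hpM : ¬ p ∣ M) :
    ((M * l : ℕ) : IsLocalRing.ResidueField A) ≠ 0 :=
  natCast_ne_zero_residue A hp hA fun h => ((Nat.Prime.dvd_mul hp).mp h).elim hpM fun h =>
    hlp ((Nat.prime_dvd_prime_iff_eq hp hl).mp h).symm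

/-- **`T_l` at `∞` of level `M p` reduces to `T̄_l`.** -/
theorem gRed_heckeNorm [NeZero M] (hpM : ¬ p ∣ M) (hlM : ¬ l ∣ M) (N : ℕ) [NeZero N]
    (hN : N = M * p) {f : FN N Qb}
    (hf : f ∈ gInt (IsLocalRing.residue A) (FN N Qb).val.toRingHom) :
    JAC.normAlong (heckeAlphaBar Qb N l) (heckeBetaBar Qb N l f) ∈
        gInt (IsLocalRing.residue A) (FN N Qb).val.toRingHom ∧
      gRed (IsLocalRing.residue A) (FN N Qb).val.toRingHom
          (JAC.normAlong (heckeAlphaBar Qb N l) (heckeBetaBar Qb N l f)) =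
        (nbarM (IsLocalRing.ResidueField A) M l
          ⟨gRed (IsLocalRing.residue A) (FN N Qb).val.toRingHom f,
            haveI := Fact.mk hp; (comp_bad hp hA M N hpM hN).gRed_mem_target f⟩ :
              LaurentSeries _) := by
  have := Fact.mk hp
  have := Model.isAlgClosed_residue A
  have : NeZero (M * l) := ⟨mul_ne_zero (NeZero.ne M) hl.ne_zero⟩
  have : NeZero (N * l) := ⟨mul_ne_zero (NeZero.ne N) hl.ne_zero⟩
  have := Fermat.RED.Cusps.isFunctionField (k := IsLocalRing.ResidueField A) (M := M)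
    (natCast_ne_zero_residue A hp hA hpM)
  have := Fermat.RED.Cusps.isFunctionField (k := IsLocalRing.ResidueField A) (M := M * l)
    (natCast_mul_ne_zero hp hA hl hlp hpM)
  have hdeg := finrank_incl (k := IsLocalRing.ResidueField A) hl hlM
    (natCast_mul_ne_zero hp hA hl hlp hpM)
  have hlN : ¬ l ∣ N := by
    rw [hN]
    exact fun h => ((Nat.Prime.dvd_mul hl).mp h).elim hlM fun h =>
      hlp ((Nat.prime_dvd_prime_iff_eq hl hp).mp h)
  have hpMl : ¬ p ∣ M * l := fun h => ((Nat.Prime.dvd_mul hp).mp h).elim hpM fun h =>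
    hlp ((Nat.prime_dvd_prime_iff_eq hp hl).mp h).symm
  exact gRed_norm_sub (α := heckeAlphaBar Qb N l) (β := heckeBetaBar Qb N l) l _ _
    (comp_bad hp hA M N hpM hN)
    (comp_bad hp hA (M * l) (N * l) hpMl (by rw [hN, mul_right_comm]))
    (fun f => coe_heckeAlphaBar N l f) (fun f => coe_heckeBetaBar N l f)
    (by rw [hdeg]; omega) (by rw [hdeg, CongX0.finrankAlong_alpha_bar N l hl hlN]) hf

variable [NeZero M] [IsAlgClosed (IsLocalRing.ResidueField A)]
  [IsFunctionField (IsLocalRing.ResidueField A)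
    (modularFunctionFieldFullC (IsLocalRing.ResidueField A) M)]
  [IsFunctionField (IsLocalRing.ResidueField A)
    (modularFunctionFieldFullC (IsLocalRing.ResidueField A) (M * l))]

/-- **`T_l` of level `M` reduces to `T̄_l`**, on classes. -/
theorem redPic_heckeT (hpM : ¬ p ∣ M) (hlM : ¬ l ∣ M)
    {r : Place Qb (modularFunctionFieldBar M) →
      Place (IsLocalRing.ResidueField A) (modularFunctionFieldFullC (IsLocalRing.ResidueField A) M)}
    (hr : IsSeriesReduction A (IsLocalRing.residue A) (modularFunctionFieldBar M)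
      (modularFunctionFieldFullC (IsLocalRing.ResidueField A) M) r) (x : JZero M) :
    redPic hr (heckeOperatorBar M ⟨l, hl⟩ x) =
      tbarMPic (IsLocalRing.ResidueField A) M l (redPic hr x) := by
  have : IsFunctionField Qb (FN (M * l) Qb) :=
    haveI : NeZero (M * l) := ⟨mul_ne_zero (NeZero.ne M) hl.ne_zero⟩
    MC.isFunctionField_FN (M * l) embC
  obtain ⟨D, rfl⟩ := Pic0.mk_surjective x
  have hD := Divisor.mem_degZero.mp D.2
  have hpull : pullDiv (heckeBetaBar Qb M l) (D : Divisor Qb (modularFunctionFieldBar M)) ∈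
      Divisor.degZero := by
    rw [Divisor.mem_degZero, degree_pullDiv, hD, mul_zero]
  have hpush : pushDiv (heckeAlphaBar Qb M l) (pullDiv (heckeBetaBar Qb M l)
      (D : Divisor Qb (modularFunctionFieldBar M))) ∈ Divisor.degZero := by
    rw [Divisor.mem_degZero, degree_pushDiv]
    exact Divisor.mem_degZero.mp hpull
  refine (congrArg (redPic hr)
    (heckeOperatorBar_eq M (⟨l, hl⟩ : Nat.Primes) (Pic0.mk D))).trans ?_
  refine (congrArg (redPic hr) ((congrArg (pushPic (heckeAlphaBar Qb M l))
    (pullPic_mk (heckeBetaBar Qb M l) D hpull)).trans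
    (pushPic_mk (heckeAlphaBar Qb M l) ⟨_, hpull⟩ hpush))).trans ?_
  rw [redPic_mk hr ⟨_, hpush⟩, redPic_mk hr D]
  have hpMl : ¬ p ∣ M * l := fun h => ((Nat.Prime.dvd_mul hp).mp h).elim hpM fun h =>
    hlp ((Nat.prime_dvd_prime_iff_eq hp hl).mp h).symm
  have : NeZero (M * l) := ⟨mul_ne_zero (NeZero.ne M) hl.ne_zero⟩
  have hdeg := finrank_incl (k := IsLocalRing.ResidueField A) hl hlM
    (natCast_mul_ne_zero hp hA hl hlp hpM)
  exact class_tbar (α := heckeAlphaBar Qb M l) (β := heckeBetaBar Qb M l) l _ _ hr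
    (picDivisible_modularFunctionFieldBar M) (comp_good hp hA M hpM) (comp_good hp hA (M * l) hpMl)
    (fun f => coe_heckeAlphaBar M l f) (fun f => coe_heckeBetaBar M l f)
    (by rw [hdeg]; omega) (by rw [hdeg, CongX0.finrankAlong_alpha_bar M l hl hlM]) D _ _

omit hp hA hl hlp in
omit [IsAlgClosed (IsLocalRing.ResidueField A)] in
/-- Reduction of classes is onto. -/
theorem redPic_surjective
    {r : Place Qb (modularFunctionFieldBar M) →
      Place (IsLocalRing.ResidueField A) (modularFunctionFieldFullC (IsLocalRing.ResidueField A) M)}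
    (hr : IsSeriesReduction A (IsLocalRing.residue A) (modularFunctionFieldBar M)
      (modularFunctionFieldFullC (IsLocalRing.ResidueField A) M) r) :
    Function.Surjective (redPic hr) := by
  intro z
  obtain ⟨E, rfl⟩ := Pic0.mk_surjective z
  obtain ⟨D, hD⟩ := Finsupp.mapDomain_surjective (M := ℤ) hr.surjective
    (E : Divisor (IsLocalRing.ResidueField A) _)
  have h0 : D ∈ Divisor.degZero := Divisor.mem_degZero.mpr (by
    rw [← hr.degree_mapDomain, hD]; exact Divisor.mem_degZero.mp E.2)
  refine ⟨Pic0.mk ⟨D, h0⟩, ?_⟩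
  rw [redPic_mk]
  exact congrArg Pic0.mk (Subtype.ext hD)

end Fermat.BAD.Corr

end
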