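import Fermat.Agent.BAD.Corr.Tbar
import Fermat.Agent.BAD.X0.Series
import Fermat.Agent.RED.Model.LevelGenus
import Fermat.Agent.RED.Congruence.X0

/-!
# The components of `X₀(N)` seen by the correspondence `T_l`

At a place over `p` the expansion at `∞` of level `M` (`p ∤ M`) or `M p` has residue field the field
of level `M` in characteristic `p`, and these fields have the degree `l + 1` over each other.
-/

set_option autoImplicit false

attribute [local instance 10000] SubalgebraClass.toAlgebra HahnSeries.powerSeriesAlgebra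

noncomputable section

open ModularCurve AlgebraicCurve IntermediateField

namespace Fermat.BAD.Corr

open Fermat.FF Fermat.MC Fermat.JAC Fermat.JAC.X0 Fermat.RED Fermat.RED.Model

local notation "Qb" => AlgebraicClosure ℚ

section Degree

variable {k : Type*} [Field k]

/-- The fields of series grow with the level. -/
theorem fullC_mono {M N : ℕ} (h : M ∣ N) :
    modularFunctionFieldFullC k M ≤ modularFunctionFieldFullC k N :=
  adjoin.mono k _ _ fun _ ⟨d, hd, hdM, e⟩ => ⟨d, hd, hdM.trans h, e⟩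

/-- `q ↦ q ^ l` sends level `M` into level `M l`. -/
theorem qExpand_mem_fullC {M l : ℕ} [NeZero l] {z : LaurentSeries k}
    (hz : z ∈ modularFunctionFieldFullC k M) :
    qExpand k l z ∈ modularFunctionFieldFullC k (M * l) := by
  have h : qExpand k l z ∈
      (modularFunctionFieldFullC k M).map (qExpandAlgHomC k l) := ⟨z, hz, rfl⟩
  rw [modularFunctionFieldFullC, adjoin_map] at h
  refine (adjoin_le_iff.mpr ?_) h
  rintro _ ⟨_, ⟨d, hd, hdM, rfl⟩, rfl⟩
  have := hd
  rw [qExpandAlgHomC_apply, qExpand_qExpand]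
  exact jqModCd_mem_full k (M * l) (by rw [mul_comm M l]; exact mul_dvd_mul_left l hdM)

/-- For a prime `l ∤ M` with `M l ≠ 0` in `k`, the reduced field of level `M l` has degree `l +
1` over that of level `M`. -/
theorem finrank_incl [IsAlgClosed k] {M l : ℕ} [NeZero M]
    [IsFunctionField k (modularFunctionFieldFullC k M)]
    [IsFunctionField k (modularFunctionFieldFullC k (M * l))]
    (hl : l.Prime) (hlM : ¬ l ∣ M) (hMl : ((M * l : ℕ) : k) ≠ 0) :
    finrankAlong k (inclusion (fullC_mono (k := k) (dvd_mul_right M l))) = l + 1 := by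
  have : NeZero (M * l) := ⟨mul_ne_zero (NeZero.ne M) hl.ne_zero⟩
  have hM : (M : k) ≠ 0 := fun h => hMl (by rw [Nat.cast_mul, h, zero_mul])
  set φ := inclusion (fullC_mono (k := k) (dvd_mul_right M l))
  have hj : φ (Model.jX k M) = Model.jX k (M * l) := Subtype.ext rfl
  have hpull : pullDiv φ (zeroDiv k (Model.jX k M)) = zeroDiv k (Model.jX k (M * l)) := by
    ext w
    rw [pullDiv_apply, zeroDiv_apply, zeroDiv_apply, ← hj, ord_below,
      mul_max_of_nonneg _ _ (Int.natCast_nonneg _), mul_zero]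
  have h := degree_pullDiv φ (zeroDiv k (Model.jX k M))
  rw [hpull, degree_zeroDiv Cusps.transcendental_jX, degree_zeroDiv Cusps.transcendental_jX,
    Cusps.finrank_jX hM, Cusps.finrank_jX hMl, dedekindPsi_mul_prime M l hl, if_neg hlM] at h
  have h' : dedekindPsi M * (l + 1) = finrankAlong k φ * dedekindPsi M := by exact_mod_cast h
  rw [mul_comm] at h'
  exact (Nat.eq_of_mul_eq_mul_right (dedekindPsi_pos (NeZero.ne M)) h').symm

end Degree

variable {A : ValuationSubring (AlgebraicClosure ℚ)} {p : ℕ}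

/-- The generators `j (q ^ d)` have integral expansions. -/
theorem int_jdL (N : ℕ) [NeZero N] :
    ∀ x ∈ Set.range (fun d : DivIdx N => jdL Qb d),
      (FN N Qb).val.toRingHom x ∈ intSeries A := by
  rintro _ ⟨d, rfl⟩
  change ((jdL Qb d : FN N Qb) : LaurentSeries Qb) ∈ _
  rw [BAD.X0.coe_jdL]
  exact BAD.X0.jb_mem _

variable (hp : p.Prime) (hA : A.LiesOverPrime p)
include hp hA

/-- The expansion at `∞` of level `N` is a component with residue field of level `M`, as soon as
the reductions lie there. -/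
theorem comp_of_mem (M N : ℕ) [NeZero N] (hMN : M ∣ N)
    (hmem : ∀ f : FN N Qb, (FN N Qb).val.toRingHom f ∈ intSeries A →
      redF (IsLocalRing.residue A) (FN N Qb).val.toRingHom f ∈
        modularFunctionFieldFullC (IsLocalRing.ResidueField A) M) :
    Comp (IsLocalRing.residue A) (FN N Qb).val.toRingHom
      (modularFunctionFieldFullC (IsLocalRing.ResidueField A) M) := by
  set k := IsLocalRing.ResidueField A
  set π := IsLocalRing.residue A
  set ι := (FN N Qb).val.toRingHom
  have hι : ∀ c, ι (algebraMap Qb (FN N Qb) c) = algebraMap Qb (LaurentSeries Qb) c := fun c => rfl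
  have hcoef : ∀ f : FN N Qb, ∃ L₀ : IntermediateField ℚ Qb, FiniteDimensional ℚ L₀ ∧
      ∀ n, (ι f).coeff n ∈ L₀ := fun f => BAD.X0.coeff_mem_of_fixed f
  -- every function has a scaling with nonzero reduction
  have hprim : ∀ f : FN N Qb, f ≠ 0 →
      ∃ c : Qb, c ≠ 0 ∧ c • f ∈ gInt π ι ∧ gRed π ι (c • f) ≠ 0 := by
    intro f hf
    -- write `f` as a quotient of polynomials in the generators and normalise both
    obtain ⟨P, hP, Q, hQ, hQ0, hfQ⟩ := X0.exists_div_jdL N f
    obtain ⟨u, a, -, -, ha, hu, hu0, hfu⟩ := BAD.X0.denom_of_div hι hp hA _ (int_jdL N) hcoef hP hQ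
      hQ0 hfQ
    have hu_ne : u ≠ 0 := fun h => hu0 (by rw [h, redF_zero])
    obtain ⟨L₀, hfin, hL⟩ := hcoef (a • (f * u))
    have := hfin
    obtain ⟨a', ha'i, ha'⟩ := BAD.X0.attained_of_coeff hι hp hA
      (smul_ne_zero ha (mul_ne_zero hf hu_ne)) hfu L₀ hL
    have hq : IsGQuot π ι ((a' * a) • f) (a' • a • (f * u)) u :=
      ⟨ha'i, hu, hu0, by rw [smul_mul_assoc, mul_smul]⟩
    have hne : gRed π ι ((a' * a) • f) ≠ 0 := by
      rw [hq.gRed_eq]; exact div_ne_zero ha' hu0
    exact ⟨a' * a, fun h => hne (by rw [h, zero_smul, gRed_zero]), hq.mem, hne⟩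
  -- surjectivity: the residue field is generated by reductions
  refine ⟨hmem, hprim, hι, fun z hz => ?_⟩
  induction hz using IntermediateField.adjoin_induction with
  | mem x hx =>
    obtain ⟨d, hd, hdM, rfl⟩ := hx
    have := hd
    have hdN : d ∈ N.divisors := Nat.mem_divisors.mpr ⟨hdM.trans hMN, NeZero.ne N⟩
    set x : FN N Qb := jdL Qb ⟨d, hdN⟩
    have hx : ι x ∈ intSeries A := int_jdL N x ⟨_, rfl⟩
    refine ⟨x, mem_gInt_of_int hx, ?_⟩
    rw [gRed_of_int hx, redF_of_mem hx]
    have e : (⟨ι x, hx⟩ : intSeries A) = ⟨coeffMap A.subtype (qExpand A d (jqModC A)), ⟨_, rfl⟩⟩ :=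
      Subtype.ext ((BAD.X0.coe_jdL Qb _).trans
        ((ModularCurve.coeffMap_qExpand A.subtype d (jqModC A)).trans
          (congrArg (qExpand Qb d) (coeffMap_jqModC A.subtype))).symm)
    rw [e]
    exact (redHom_coeffMap π _ _).trans (by rw [ModularCurve.coeffMap_qExpand, coeffMap_jqModC])
  | algebraMap c =>
    obtain ⟨a, rfl⟩ := IsLocalRing.residue_surjective (R := A) c
    have ha : ι (algebraMap Qb (FN N Qb) a) ∈ intSeries A := by
      rw [hι]; exact algebraMap_mem_intSeries a.2
    refine ⟨_, mem_gInt_of_int ha, ?_⟩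
    rw [gRed_of_int ha, redF_of_mem ha, ← redHom_algebraMap π a.2]
    exact congrArg _ (Subtype.ext (hι a))
  | add x y _ _ hx hy =>
    obtain ⟨f, hf, rfl⟩ := hx
    obtain ⟨g, hg, rfl⟩ := hy
    exact ⟨f + g, add_mem hf hg, gRed_add hf hg⟩
  | inv x _ hx =>
    obtain ⟨f, hf, rfl⟩ := hx
    rcases eq_or_ne (gRed π ι f) 0 with h0 | h0
    · exact ⟨0, zero_mem _, by rw [h0, inv_zero, gRed_zero]⟩
    · exact ⟨f⁻¹, inv_mem_gInt hf h0⟩
  | mul x y _ _ hx hy =>
    obtain ⟨f, hf, rfl⟩ := hx
    obtain ⟨g, hg, rfl⟩ := hy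
    exact ⟨f * g, mul_mem hf hg, gRed_mul hf hg⟩

/-- For level `M` prime to `p` the residue field at `∞` is the field of level `M`. -/
theorem comp_good (M : ℕ) [NeZero M] (hpM : ¬ p ∣ M) :
    Comp (IsLocalRing.residue A) (FN M Qb).val.toRingHom
      (modularFunctionFieldFullC (IsLocalRing.ResidueField A) M) := by
  have := Model.isAlgClosed_residue A
  refine comp_of_mem hp hA M M dvd_rfl fun f hf => ?_
  obtain ⟨y, hy⟩ := id hf
  have hy' : coeffMap A.subtype y = (f : LaurentSeries Qb) := hy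
  rw [redF_of_mem hf, show (⟨_, hf⟩ : intSeries A) = ⟨coeffMap A.subtype y, ⟨_, rfl⟩⟩ from
    Subtype.ext hy'.symm]
  refine (congrArg (· ∈ modularFunctionFieldFullC _ M)
    (redHom_coeffMap (IsLocalRing.residue A) y _)).mpr ?_
  refine BAD.X0.mem_fullC_of_coe IsLocalRing.residue_surjective
    (natCast_ne_zero_residue A hp hA hpM) y ?_
  rw [hy', ← fullC_eq_baseChange Qb M]
  exact f.2

/-- For level `M p`, `p ∤ M`, the residue field of the component at `∞` is that of level `M`. -/
theorem comp_bad (M N : ℕ) [NeZero M] [NeZero N] [Fact p.Prime] (hpM : ¬ p ∣ M) (hN : N = M * p) :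
    Comp (IsLocalRing.residue A) (FN N Qb).val.toRingHom
      (modularFunctionFieldFullC (IsLocalRing.ResidueField A) M) := by
  subst hN
  exact comp_of_mem hp hA M (M * p) (dvd_mul_right M p) fun f hf =>
    BAD.X0.redF_true_mem M p hp hpM hA f hf

end Fermat.BAD.Corr

end
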