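import Fermat.Agent.BAD.Corr.X0
import Fermat.Agent.BAD.X0.ModPoly
import Fermat.Agent.RED.LevelOne
import Fermat.Agent.FF.IntegralClosure

/-!
# `T̄_l` preserves the finite part

`j (q ^ l)` is integral over `ℤ[j]`, so divisors supported at the poles of `j` are sent by `T̄_l` to
divisors supported there.
-/

set_option autoImplicit false

attribute [local instance 10000] SubalgebraClass.toAlgebra HahnSeries.powerSeriesAlgebra

noncomputable section

open ModularCurve AlgebraicCurve Polynomial

namespace Fermat.BAD.Corr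

open Fermat.FF Fermat.RED Fermat.RED.Model Fermat.BAD.X0

variable {k : Type*} [Field k]

/-- The modular polynomial of level `l` vanishes at `(j, j (q ^ l))`. -/
theorem modular_eval (l : ℕ) [NeZero l] [Fact l.Prime] {ζ : kˣ} (hζ : IsPrimitiveRoot ζ l) :
    ((levelOne l).Φ.map (ev (jqModC k))).eval (qExpand k l (jqModC k)) = 0 := by
  have h := (levelOne l).identities_of_isPrimitiveRoot hζ
  refine (qExpand k l).injective ?_
  rw [map_zero, map_eval_ev, qExpand_qExpand]
  have e : ev (qExpand k l (jqModC k)) = RED.evalAt k (jb k 1 l) := by rw [jb_one]; rfl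
  rw [e, h.eq_modular, eval_prod]
  refine Finset.prod_eq_zero (Finset.mem_univ none) ?_
  rw [eval_sub, eval_X, eval_C, sub_eq_zero]
  have : NeZero (l * l) := ⟨mul_ne_zero (NeZero.ne l) (NeZero.ne l)⟩
  exact (jb_one (l * l)).symm

variable [IsAlgClosed k] (M : ℕ) {l : ℕ} [NeZero l] (hl : l.Prime) (hlk : (l : k) ≠ 0)
  [IsFunctionField k (modularFunctionFieldFullC k M)]
  [IsFunctionField k (modularFunctionFieldFullC k (M * l))]
include hl hlk

/-- Where `j` is regular, `j (q ^ l)` is. -/
theorem ordGE_betaT {P : Place k (modularFunctionFieldFullC k (M * l))}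
    (hP : OrdGE (JAC.below (IntermediateField.inclusion (fullC_mono (dvd_mul_right M l))) P)
      (jX k M) 0) :
    OrdGE P (betaT l (qExpand_fullC_le k M l) (jX k M)) 0 := by
  have := Fact.mk hl
  have : NeZero (l : k) := ⟨hlk⟩
  obtain ⟨ζ0, hζ0⟩ := HasEnoughRootsOfUnity.exists_primitiveRoot k l
  obtain ⟨ζ, rfl⟩ := hζ0.isUnit (NeZero.ne l)
  have hζ : IsPrimitiveRoot ζ l := IsPrimitiveRoot.coe_units_iff.mp hζ0
  set i := IntermediateField.inclusion (fullC_mono (k := k) (dvd_mul_right M l))
  set x := i (jX k M)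
  set y := betaT l (qExpand_fullC_le k M l) (jX k M)
  let g : ℤ[X] →+* Algebra.adjoin k {x} :=
    ev (⟨x, Algebra.self_mem_adjoin_singleton k x⟩ : Algebra.adjoin k {x})
  have hint : IsIntegral (Algebra.adjoin k {x}) y := by
    refine ⟨(levelOne l).Φ.map g, (levelOne l).monic_Φ.map g, ?_⟩
    rw [eval₂_eq_eval_map, Polynomial.map_map,
      map_ev (algebraMap (Algebra.adjoin k {x}) (modularFunctionFieldFullC k (M * l)))]
    refine (modularFunctionFieldFullC k (M * l)).val.toRingHom.injective ?_
    rw [map_eval_ev, map_zero]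
    exact modular_eval l hζ
  exact isIntegral_adjoin_iff.mp hint P (JAC.ordGE_comp i hP)

/-- **`T̄_l` preserves the finite part.** If `E` is zero at every place where `j` is finite, then so
is `T̄_l E`. -/
theorem tbarM_eq_zero (hj : Transcendental k (jX k M))
    {E : Divisor k (modularFunctionFieldFullC k M)}
    (hE : ∀ v, OrdGE v (jX k M) 0 → E v = 0) {t : Place k (modularFunctionFieldFullC k M)}
    (ht : OrdGE t (jX k M) 0) : tbarM k M l E t = 0 := by
  rw [tbarM, tbar, AddMonoidHom.comp_apply, JAC.pushDiv_apply]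
  refine Finset.sum_eq_zero fun P hP => ?_
  rw [JAC.mem_above] at hP
  rw [JAC.pullDiv_apply]
  have h := ordGE_betaT M hl hlk (P := P) (by rw [hP]; exact ht)
  rw [hE _ ?_, mul_zero]
  rcases ordGE_iff.1 h with h0 | h0
  · exact absurd ((map_eq_zero _).mp h0) fun e => hj (by rw [e]; exact isAlgebraic_zero)
  · refine ordGE_iff.2 (Or.inr ?_)
    rw [JAC.ord_below] at h0
    exact nonneg_of_mul_nonneg_right h0
      (by exact_mod_cast JAC.ramificationIndexAlong_pos (betaT l (qExpand_fullC_le k M l)) P)

end Fermat.BAD.Corr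

end
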