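import Fermat.Agent.BAD.Corr.DeltaProd
import Fermat.Agent.BAD.Corr.X0
import Fermat.Agent.BAD.X0.Glue

/-!
# The norm of the function cutting out the glued points

`T_l` sends `Δ (z) / Δ (p z)` to its power `l + 1`, hence so does `T̄_l` for its reduction.
-/

set_option autoImplicit false

attribute [local instance 10000] SubalgebraClass.toAlgebra HahnSeries.powerSeriesAlgebra

noncomputable section

open ModularCurve

namespace Fermat.BAD.Corr

open Fermat.FF Fermat.MC Fermat.JAC.X0 Fermat.RED Fermat.RED.Model Fermat.BAD.X0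

local notation "Qb" => AlgebraicClosure ℚ

section Series

variable {C : Type*} [Field C]

/-- A series whose expansion is that of the norm along `T_l` of `h = Δ (z) / Δ (p z)` is `h ^ (l
+ 1)`, for a prime `l` coprime to `p`, one of them odd. -/
theorem quot_norm {p l : ℕ} [NeZero p] [NeZero l] (hl : l.Prime) (hp : Odd p ∨ Odd l)
    (hlp : p.Coprime l) {ζ : Cˣ} (hζ : IsPrimitiveRoot (ζ : C) l) {h z : LaurentSeries C}
    (hh : h * qExpand C p (deltaSeries C) = deltaSeries C)
    (hz : qExpand C l z = qExpand C l (qExpand C l h) * ∏ i : Fin l, twist (ζ ^ (i : ℕ)) h) :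
    z = h ^ (l + 1) := by
  set D := deltaSeries C
  set c := ∏ i : Fin l, (ζ : C) ^ (i : ℕ) with hc
  have hc2 : c ^ 2 = 1 := by
    have e : c = (ζ : C) ^ (∑ i : Fin l, (i : ℕ)) := Finset.prod_pow_eq_pow_sum _ _ _
    rw [e, ← pow_mul, Fin.sum_univ_eq_sum_range (fun i => i) l, Finset.sum_range_id_mul_two,
      pow_mul, hζ.pow_eq_one, one_pow]
  have hcp : c ^ p = c := by
    rcases hp with ⟨a, rfl⟩ | ho
    · rw [pow_succ, pow_mul, hc2, one_pow, one_mul]
    · have h1 : c = 1 := by
        rw [hc, Finset.prod_pow_eq_pow_sum, hζ.pow_eq_one_iff_dvd]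
        refine (Nat.coprime_two_right.mpr ho).dvd_of_dvd_mul_right ?_
        rw [Fin.sum_univ_eq_sum_range (fun i => i) l, Finset.sum_range_id_mul_two]
        exact dvd_mul_right l (l - 1)
      rw [h1, one_pow]
  have h1 := deltaSeries_norm (C := C) hl hζ
  have hζp : IsPrimitiveRoot ((ζ ^ p : Cˣ) : C) l := by
    rw [Units.val_pow_eq_pow_val]; exact hζ.pow_of_coprime p hlp
  have h2 := deltaSeries_norm (C := C) hl hζp
  have hcc : ∏ i : Fin l, ((ζ ^ p : Cˣ) : C) ^ (i : ℕ) = c := by
    rw [← hcp, hc, ← Finset.prod_pow]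
    refine Finset.prod_congr rfl fun i _ => ?_
    rw [Units.val_pow_eq_pow_val, ← pow_mul, ← pow_mul, mul_comm]
  rw [hcc] at h2
  have h3 : qExpand C p (qExpand C l (qExpand C l D)) *
      ∏ i : Fin l, twist (ζ ^ (i : ℕ)) (qExpand C p D) =
      qExpand C p (algebraMap C (LaurentSeries C) c * qExpand C l D ^ (l + 1)) := by
    rw [← h2, map_mul, map_prod]
    refine congrArg _ (Finset.prod_congr rfl fun i _ => ?_)
    rw [twist_qExpand, ← pow_mul, ← pow_mul, mul_comm]
  have hA : ∀ x : C, qExpand C p (algebraMap C (LaurentSeries C) x) =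
      algebraMap C _ x := fun x => by
    rw [algebraMap_laurentSeries_eq_single, qExpand_single, mul_zero]
  rw [map_mul, hA, map_pow] at h3
  have hcomm : ∀ x : LaurentSeries C, qExpand C p (qExpand C l x) = qExpand C l (qExpand C p x) :=
    fun x => by
      have : NeZero (p * l) := ⟨mul_ne_zero (NeZero.ne p) (NeZero.ne l)⟩
      have : NeZero (l * p) := ⟨mul_ne_zero (NeZero.ne l) (NeZero.ne p)⟩
      rw [qExpand_qExpand, qExpand_qExpand]
      simp only [mul_comm l p]
  rw [hcomm (qExpand C l D), hcomm D] at h3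
  -- multiply the norm by the expansion of the denominator
  -- the norms of `Δ (z)` and of `Δ (p z)` differ by the same constant `c = c ^ p`
  have key : qExpand C l (z * qExpand C p D ^ (l + 1)) * algebraMap C (LaurentSeries C) c =
      qExpand C l (D ^ (l + 1)) * algebraMap C (LaurentSeries C) c := by
    rw [map_mul, map_pow, map_pow, hz, mul_assoc (qExpand C l (qExpand C l h) * _),
      mul_comm (qExpand C l (qExpand C p D) ^ (l + 1)), ← h3,
      mul_mul_mul_comm, ← map_mul, ← map_mul, ← Finset.prod_mul_distrib]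
    simp only [← map_mul]
    rw [hh, h1, mul_comm]
  have hc0 : algebraMap C (LaurentSeries C) c ≠ 0 :=
    (map_ne_zero _).mpr fun e => by simp [e] at hc2
  have hD : qExpand C p D ≠ 0 := fun e => by
    have := hh
    rw [e, mul_zero] at this
    have h0 := deltaSeries_mul_inv C
    rw [show deltaSeries C = 0 from this.symm, zero_mul] at h0
    exact zero_ne_one h0
  have h4 := (qExpand C l).injective (mul_right_cancel₀ hc0 key)
  refine mul_right_cancel₀ (pow_ne_zero (l + 1) hD) ?_
  rw [h4, ← mul_pow, hh]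

end Series

variable (M p : ℕ) [NeZero M] [NeZero p] [Fact p.Prime] (hp : p.Prime) (hpM : ¬ p ∣ M)

/-- **The norm of `Δ (z) / Δ (p z)`.** The norm of `h = Δ (z) / Δ (p z)` along the correspondence
`T_l` is `h ^ (l + 1)`. -/
theorem heckeNorm_wn (l : ℕ) [NeZero l] (hl : l.Prime) (hlM : ¬ l ∣ M * p) :
    JAC.normAlong (heckeAlphaBar Qb (M * p) l) (heckeBetaBar Qb (M * p) l (wn M p hp hpM)) =
      wn M p hp hpM ^ (l + 1) := by
  have : IsFunctionField Qb (FN (M * p * l) Qb) := MC.isFunctionField_FN (M * p * l) embC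
  obtain ⟨e₀, hα₀, hβ₀⟩ := CongX0.exists_otherExpansion (M * p) l hl hlM
  obtain ⟨ζ, hζ⟩ := exists_isPrimitiveRoot_unit Qb l (Nat.cast_ne_zero.mpr hl.ne_zero)
  have hζ' : IsPrimitiveRoot (ζ : Qb) l := IsPrimitiveRoot.coe_units_iff.mpr hζ
  have hw : ((wn M p hp hpM : FN (M * p) Qb) : LaurentSeries Qb) =
      deltaSeries Qb * qExpand Qb p (deltaSeriesInv Qb) :=
    (emb_wn M p hp hpM true).trans (emb_false_un M p hp hpM)
  refine Subtype.ext ?_
  rw [SubmonoidClass.coe_pow]
  refine quot_norm hl (hp.eq_two_or_odd'.elim (fun e => Or.inr (hl.odd_of_ne_two fun e' =>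
    hlM (by rw [e, e']; exact dvd_mul_left 2 M))) Or.inl)
      ((Nat.coprime_primes hp hl).mpr fun e => hlM ?_) hζ'
    (by rw [hw, mul_assoc, ← map_mul, mul_comm (deltaSeriesInv Qb), deltaSeries_mul_inv, map_one,
      mul_one]) ?_
  · rw [e]; exact dvd_mul_left l M
  · exact qExpand_normAlong_eq (heckeAlphaBar Qb (M * p) l) (heckeBetaBar Qb (M * p) l)
      (FN (M * p) Qb).val.toRingHom (FN (M * p * l) Qb).val.toRingHom e₀ id
      (coe_heckeAlphaBar (M * p) l) (coe_heckeBetaBar (M * p) l) hα₀ hβ₀ hζ' hl.one_lt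
      (CongX0.finrankAlong_alpha_bar (M * p) l hl hlM) (y := jL (M * p) Qb)
      (by
        change (coeffEmb Qb jq).coeff (-1 : ℤ) ≠ 0
        rw [coeffEmb_coeff, coeff_jq_neg_one, map_one]
        exact one_ne_zero) (wn M p hp hpM)

variable [FF.IsFunctionField Qb (FN (M * p) Qb)] [FF.IsFunctionField Qb (FN M Qb)]
variable {A : ValuationSubring (AlgebraicClosure ℚ)} (hA : A.LiesOverPrime p)
  [IsAlgClosed (IsLocalRing.ResidueField A)]

/-- **`T̄_l` on the reduction of `Δ (z) / Δ (p z)`.** -/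
theorem nbarM_hbar (l : ℕ) [NeZero l] (hl : l.Prime) (hlM : ¬ l ∣ M * p) :
    nbarM (IsLocalRing.ResidueField A) M l (hbar M p hp hpM hA) =
      hbar M p hp hpM hA ^ (l + 1) := by
  have hlp : l ≠ p := fun e => hlM (by rw [e]; exact dvd_mul_left p M)
  have hl' : ¬ l ∣ M := fun h => hlM (dvd_mul_of_dvd_left h p)
  have hi : emb M p hp hpM true (wn M p hp hpM) ∈ intSeries A := emb_wn_int M p hp hpM true
  have hg : wn M p hp hpM ∈ gInt (IsLocalRing.residue A) (FN (M * p) Qb).val.toRingHom :=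
    mem_gInt_of_int hi
  have hr : gRed (IsLocalRing.residue A) (FN (M * p) Qb).val.toRingHom (wn M p hp hpM) =
      hSer (IsLocalRing.ResidueField A) p :=
    (gRed_of_int hi).trans (redF_wn M p hp hpM)
  obtain ⟨-, h⟩ := gRed_heckeNorm hp hA hl hlp hpM hl' (M * p) rfl hg
  rw [heckeNorm_wn M p hp hpM l hl hlM, gRed_pow hg] at h
  refine Subtype.ext ?_
  rw [SubmonoidClass.coe_pow]
  refine Eq.trans (congrArg (fun z => ((nbarM (IsLocalRing.ResidueField A) M l z : _) :
    LaurentSeries (IsLocalRing.ResidueField A))) (Subtype.ext ?_)) (h.symm.trans ?_)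
  · exact hr.symm
  · exact congrArg (· ^ (l + 1)) hr

end Fermat.BAD.Corr

end
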