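import Mathlib
import Fermat.Agent.RED.ModPoly

/-!
# The norm of `Δ` along `q ↦ q ^ l`

The product of the `l + 1` branches of `Δ (l τ)` is `± Δ ^ (l + 1)`, as an identity of `q`-series:
`eulerTrunc_norm` is the identity for finite Euler products, `eulerC_norm` its limit and
`deltaSeries_norm` the statement for `Δ = q ∏ (1 - q ^ n) ^ 24`.
-/

set_option autoImplicit false

noncomputable section

open ModularCurve PowerSeries
open scoped PowerSeries.WithPiTopology

namespace Fermat.BAD.Corr

variable {R : Type*} [CommRing R]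

section Finite

/-- The first `M` factors of the Euler product. -/
def eulerTrunc (R : Type*) [CommRing R] (M : ℕ) : PowerSeries R :=
  ∏ n ∈ Finset.range M, (1 - X ^ (n + 1))

/-- A product of factors congruent to `1` modulo `X ^ K` is congruent to `1`. -/
theorem X_pow_dvd_prod_sub_one {α : Type*} (s : Finset α) {K : ℕ} (f : α → PowerSeries R)
    (h : ∀ a ∈ s, X ^ K ∣ f a - 1) : X ^ K ∣ (∏ a ∈ s, f a) - 1 := by
  classical
  induction s using Finset.induction_on with
  | empty => simp
  | insert a s ha ih =>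
    rw [Finset.prod_insert ha, show f a * ∏ x ∈ s, f x - 1 =
      (f a - 1) * (∏ x ∈ s, f x) + ((∏ x ∈ s, f x) - 1) by ring]
    exact dvd_add ((h a (Finset.mem_insert_self a s)).mul_right _)
      (ih fun x hx => h x (Finset.mem_insert_of_mem hx))

/-- `∏ (1 - X ^ (n + 1))` agrees with its truncation at `M` modulo `X ^ K`, for `K ≤ M`. -/
theorem dvd_etaProd_sub (K M : ℕ) (hKM : K ≤ M) :
    X ^ K ∣ etaProd - eulerTrunc ℤ M := by
  rw [PowerSeries.X_pow_dvd_iff]
  intro m hm
  have hh : Filter.Tendsto (fun s : Finset ℕ =>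
    (∏ n ∈ s, (1 - (X : PowerSeries ℤ) ^ (n + 1))).coeff m)
      Filter.atTop (nhds (etaProd.coeff m)) :=
    ((PowerSeries.WithPiTopology.continuous_coeff ℤ m).tendsto _).comp
      (PowerSeries.WithPiTopology.multipliable_one_sub_X_pow ℤ).hasProd
  rw [nhds_discrete, Filter.tendsto_pure] at hh
  obtain ⟨s, hs⟩ := Filter.eventually_atTop.mp hh
  have he := hs (s ∪ Finset.range M) Finset.subset_union_left
  rw [map_sub, ← he, ← map_sub, ← Finset.prod_sdiff (Finset.subset_union_right (s₁ := s)),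
    eulerTrunc, ← sub_one_mul]
  refine PowerSeries.X_pow_dvd_iff.mp (dvd_mul_of_dvd_left ?_ _) m hm
  refine X_pow_dvd_prod_sub_one _ _ fun n hn => ?_
  rw [Finset.mem_sdiff, Finset.mem_range] at hn
  rw [sub_sub_cancel_left, dvd_neg]
  exact pow_dvd_pow _ (by omega)

variable (R) in
/-- The Euler product `∏ (1 - q ^ n)`, with coefficients in `R`. -/
def eulerC : PowerSeries R := etaProd.map (Int.castRingHom R)

/-- The Euler product agrees with its truncations over any ring. -/
theorem dvd_eulerC_sub (K M : ℕ) (hKM : K ≤ M) :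
    X ^ K ∣ eulerC R - eulerTrunc R M := by
  have h := map_dvd (PowerSeries.map (Int.castRingHom R)) (dvd_etaProd_sub K M hKM)
  simpa [eulerC, eulerTrunc, map_prod] using h

end Finite

section Identity

variable {C : Type*} [Field C] {l : ℕ} {ζ : C}

/-- For a prime `l` the product of `1 - X ^ (n + 1)` over the twists `X ↦ ζ ^ i X` is its `l`-th
power if `l ∣ n + 1` and `1 - X ^ (l (n + 1))` otherwise. -/
theorem prod_one_sub_smul (hl : l.Prime) (hζ : IsPrimitiveRoot ζ l) (n : ℕ) :
    ∏ i : Fin l, rescale (ζ ^ (i : ℕ)) (1 - (X : PowerSeries C) ^ (n + 1)) =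
      if l ∣ n + 1 then (1 - X ^ (n + 1)) ^ l else 1 - (X ^ (n + 1)) ^ l := by
  have : NeZero l := ⟨hl.ne_zero⟩
  have e : ∀ i : Fin l, rescale (ζ ^ (i : ℕ)) (1 - (X : PowerSeries C) ^ (n + 1)) =
      1 - PowerSeries.C ((ζ ^ (n + 1)) ^ (i : ℕ)) * X ^ (n + 1) := fun i => by
    rw [map_sub, map_one, map_pow, rescale_X, mul_pow, ← map_pow, ← pow_mul, ← pow_mul,
      mul_comm (n + 1) (i : ℕ)]
  rw [Finset.prod_congr rfl fun i _ => e i]
  split_ifs with h
  · simp [(hζ.pow_eq_one_iff_dvd _).mpr h]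
  · have hc : Nat.Coprime (n + 1) l := ((hl.coprime_iff_not_dvd).mpr h).symm
    have hω : IsPrimitiveRoot (PowerSeries.C (ζ ^ (n + 1))) l :=
      (hζ.pow_of_coprime _ hc).map_of_injective PowerSeries.C_injective
    have h1 := hω.pow_sub_pow_eq_prod_sub_mul (1 : PowerSeries C) (X ^ (n + 1)) hl.pos
    rw [one_pow] at h1
    rw [h1]
    refine Finset.prod_bij (fun (i : Fin l) _ => PowerSeries.C (ζ ^ (n + 1)) ^ (i : ℕ)) ?_ ?_ ?_ ?_
    · intro i _
      rw [Polynomial.mem_nthRootsFinset hl.pos, ← pow_mul, mul_comm, pow_mul,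
        hω.pow_eq_one, one_pow]
    · intro i _ j _ hij
      exact Fin.ext (hω.pow_inj i.2 j.2 hij)
    · intro μ hμ
      obtain ⟨i, hi, rfl⟩ := hω.eq_pow_of_pow_eq_one
        ((Polynomial.mem_nthRootsFinset hl.pos 1).mp hμ)
      exact ⟨⟨i, hi⟩, Finset.mem_univ _, rfl⟩
    · intro i _
      rw [map_pow]

/-- Reindexing the `n < l K` with `l ∣ n + 1` by `n + 1 = l (k + 1)`. -/
theorem prod_filter_dvd_succ (l K : ℕ) (hl : 0 < l) (f : ℕ → PowerSeries C) :
    ∏ n ∈ (Finset.range (l * K)).filter (fun n => l ∣ n + 1), f (n + 1) =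
      ∏ k ∈ Finset.range K, f (l * (k + 1)) := by
  refine Finset.prod_bij (fun n _ => (n + 1) / l - 1) ?_ ?_ ?_ ?_
  · intro n hn
    rw [Finset.mem_filter, Finset.mem_range] at hn
    obtain ⟨hn, m, hm⟩ := hn
    rw [hm, Nat.mul_div_cancel_left m hl, Finset.mem_range]
    have : m ≤ K := Nat.le_of_mul_le_mul_left (by omega : l * m ≤ l * K) hl
    rcases m with _ | m <;> simp_all
  · intro n hn n' hn' h
    rw [Finset.mem_filter] at hn hn'
    obtain ⟨-, m, hm⟩ := hn
    obtain ⟨-, m', hm'⟩ := hn'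
    rw [hm, hm', Nat.mul_div_cancel_left m hl, Nat.mul_div_cancel_left m' hl] at h
    have : m = m' := by rcases m with _ | m <;> rcases m' with _ | m' <;> simp_all
    subst this
    omega
  · intro k hk
    rw [Finset.mem_range] at hk
    have h1 : l * (k + 1) ≤ l * K := Nat.mul_le_mul_left l hk
    have h2 : 1 ≤ l * (k + 1) := Nat.one_le_iff_ne_zero.mpr (by positivity)
    refine ⟨l * (k + 1) - 1, Finset.mem_filter.mpr ⟨Finset.mem_range.mpr (by omega), ?_⟩, ?_⟩
    · rw [Nat.sub_add_cancel h2]; exact dvd_mul_right l _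
    · rw [Nat.sub_add_cancel h2, Nat.mul_div_cancel_left _ hl, Nat.add_sub_cancel]
  · intro n hn
    rw [Finset.mem_filter] at hn
    obtain ⟨-, m, hm⟩ := hn
    rw [hm, Nat.mul_div_cancel_left m hl]
    rcases m with _ | m <;> simp_all

/-- A product over `n < l K` with an extra factor `f` at the multiples `n + 1 = l (k + 1)` is the
product of `g` times that of `f` over those multiples. -/
theorem prod_range_mul_ite (l K : ℕ) (hl : 0 < l) (f g : ℕ → PowerSeries C) :
    ∏ n ∈ Finset.range (l * K), (if l ∣ n + 1 then f (n + 1) else g (n + 1)) *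
        (if l ∣ n + 1 then g (n + 1) else 1) =
      (∏ n ∈ Finset.range (l * K), g (n + 1)) * ∏ k ∈ Finset.range K, f (l * (k + 1)) := by
  classical
  have e : ∀ n, (if l ∣ n + 1 then f (n + 1) else g (n + 1)) * (if l ∣ n + 1
    then g (n + 1) else 1) =
      g (n + 1) * (if l ∣ n + 1 then f (n + 1) else 1) := fun n => by split_ifs <;> ring
  rw [Finset.prod_congr rfl fun n _ => e n, Finset.prod_mul_distrib, ← Finset.prod_filter]
  exact congrArg _ (prod_filter_dvd_succ l K hl f)

/-- The norm identity for the truncated Euler product under `q ↦ q ^ l`, `l` prime. -/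
theorem eulerTrunc_norm (hl : l.Prime) (hζ : IsPrimitiveRoot ζ l) (K : ℕ) :
    expand (l * l) (mul_ne_zero hl.ne_zero hl.ne_zero) (eulerTrunc C K) *
        ∏ i : Fin l, rescale (ζ ^ (i : ℕ)) (eulerTrunc C (l * K)) =
      expand l hl.ne_zero (eulerTrunc C (l * K)) * expand l hl.ne_zero (eulerTrunc C K) ^ l := by
  classical
  simp only [eulerTrunc, map_prod, map_sub, map_one, map_pow, expand_X, ← pow_mul]
  rw [Finset.prod_comm]
  have e : ∀ n : ℕ, ∏ i : Fin l, (1 - rescale (ζ ^ (i : ℕ)) (X : PowerSeries C) ^ (n + 1)) =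
      if l ∣ n + 1 then (1 - X ^ (n + 1)) ^ l else 1 - X ^ (l * (n + 1)) := fun n => by
    simpa [map_sub, map_pow, ← pow_mul, mul_comm] using prod_one_sub_smul hl hζ n
  rw [Finset.prod_congr rfl fun n _ => e n]
  have h := prod_range_mul_ite (C := C) l K hl.pos (fun m => (1 - X ^ m) ^ l)
    (fun m => 1 - X ^ (l * m))
  rw [Finset.prod_mul_distrib] at h
  rw [← Finset.prod_pow, mul_comm]
  refine Eq.trans ?_ h
  congr 1
  rw [← Finset.prod_filter]
  rw [prod_filter_dvd_succ l K hl.pos (fun m => 1 - X ^ (l * m))]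
  simp [mul_assoc]

/-- Congruences modulo `X ^ K` map to congruences modulo the image of `X`, to the `K`. -/
theorem dvd_map_sub {S : Type*} [CommRing S] (φ : PowerSeries C →+* S) {t : S} {K : ℕ}
    (hφ : t ∣ φ X) {a b : PowerSeries C} (h : X ^ K ∣ a - b) : t ^ K ∣ φ a - φ b := by
  rw [← map_sub]
  exact (pow_dvd_pow_of_dvd hφ K).trans ((map_pow φ X K).symm ▸ map_dvd φ h)

/-- **The norm identity for the Euler product**, as the limit of the truncated one. -/
theorem eulerC_norm (hl : l.Prime) (hζ : IsPrimitiveRoot ζ l) :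
    expand (l * l) (mul_ne_zero hl.ne_zero hl.ne_zero) (eulerC C) *
        ∏ i : Fin l, rescale (ζ ^ (i : ℕ)) (eulerC C) =
      expand l hl.ne_zero (eulerC C) ^ (l + 1) := by
  ext m
  set K := m + 1
  have hle : K ≤ l * K := Nat.le_mul_of_pos_left _ hl.pos
  set I := Ideal.span ({(X : PowerSeries C) ^ K} : Set (PowerSeries C))
  have hmk : ∀ {a b : PowerSeries C}, (X : PowerSeries C) ^ K ∣ a - b →
      Ideal.Quotient.mk I a = Ideal.Quotient.mk I b := fun h =>
    Ideal.Quotient.eq.mpr (Ideal.mem_span_singleton.mpr h)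
  have hx : ∀ {k : ℕ} (hk : k ≠ 0), (X : PowerSeries C) ∣ expand k hk X := fun hk => by
    rw [expand_X]; exact dvd_pow_self X hk
  have h1 := dvd_eulerC_sub (R := C) K K le_rfl
  have h2 := dvd_eulerC_sub (R := C) K (l * K) hle
  have key : Ideal.Quotient.mk I (expand (l * l) (mul_ne_zero hl.ne_zero hl.ne_zero) (eulerC C) *
      ∏ i : Fin l, rescale (ζ ^ (i : ℕ)) (eulerC C)) =
        Ideal.Quotient.mk I (expand l hl.ne_zero (eulerC C) ^ (l + 1)) := by
    have e1 : ∀ {k : ℕ} (hk : k ≠ 0) (M : ℕ), (X : PowerSeries C) ^ K ∣ eulerC C - eulerTrunc C M →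
        Ideal.Quotient.mk I (expand k hk (eulerC C)) =
          Ideal.Quotient.mk I (expand k hk (eulerTrunc C M)) := fun hk M h =>
      hmk (dvd_map_sub (expand _ hk).toRingHom (hx hk) h)
    have e2 : ∀ i : Fin l, Ideal.Quotient.mk I (rescale (ζ ^ (i : ℕ)) (eulerC C)) =
        Ideal.Quotient.mk I (rescale (ζ ^ (i : ℕ)) (eulerTrunc C (l * K))) := fun i =>
      hmk (dvd_map_sub (rescale (ζ ^ (i : ℕ))) (by rw [rescale_X]; exact dvd_mul_left X _) h2)
    rw [map_mul, map_prod, e1 _ K h1, Finset.prod_congr rfl fun i _ => e2 i, ← map_prod, ← map_mul,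
      eulerTrunc_norm hl hζ K, pow_succ', map_mul, map_mul, map_pow, map_pow, e1 hl.ne_zero _ h2,
      ← e1 hl.ne_zero _ h1, ← e1 hl.ne_zero _ h2]
  have := Ideal.mem_span_singleton.mp (Ideal.Quotient.eq.mp key)
  exact sub_eq_zero.mp (by rw [← map_sub]; exact X_pow_dvd_iff.mp this m (Nat.lt_succ_self m))

end Identity

section Laurent

variable {C : Type*} [Field C]

/-- Substituting `q ^ k` in a power series read as a Laurent series is `PowerSeries.expand`. -/
theorem qExpand_ofPowerSeries (k : ℕ) [NeZero k] (f : PowerSeries C) :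
    qExpand C k (HahnSeries.ofPowerSeries ℤ C f) =
      HahnSeries.ofPowerSeries ℤ C (expand k (NeZero.ne k) f) := by
  ext n
  have hk : (0 : ℤ) < k := by exact_mod_cast Nat.pos_of_ne_zero (NeZero.ne k)
  by_cases hd : (k : ℤ) ∣ n
  · obtain ⟨m, rfl⟩ := hd
    rw [qExpand_coeff_mul]
    rcases le_or_gt 0 m with hm | hm
    · lift m to ℕ using hm
      rw [← Nat.cast_mul, HahnSeries.ofPowerSeries_apply_coeff,
        HahnSeries.ofPowerSeries_apply_coeff, coeff_expand_mul]
    · rw [ofPowerSeries_coeff_of_neg _ hm,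
        ofPowerSeries_coeff_of_neg _ (mul_neg_of_pos_of_neg hk hm)]
  · rw [qExpand_coeff_of_not_dvd k _ hd]
    rcases le_or_gt 0 n with hn | hn
    · lift n to ℕ using hn
      rw [HahnSeries.ofPowerSeries_apply_coeff, coeff_expand_of_not_dvd]
      exact fun h => hd (Int.natCast_dvd_natCast.mpr h)
    · rw [ofPowerSeries_coeff_of_neg _ hn]

/-- A twist of a power series read as a Laurent series is `rescale`. -/
theorem twist_ofPowerSeries (c : Cˣ) (f : PowerSeries C) :
    RED.twist c (HahnSeries.ofPowerSeries ℤ C f) =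
      HahnSeries.ofPowerSeries ℤ C (rescale (c : C) f) := by
  ext n
  rw [RED.twist_coeff]
  rcases le_or_gt 0 n with hn | hn
  · lift n to ℕ using hn
    rw [HahnSeries.ofPowerSeries_apply_coeff, HahnSeries.ofPowerSeries_apply_coeff, coeff_rescale,
      zpow_natCast, Units.val_pow_eq_pow_val]
  · rw [ofPowerSeries_coeff_of_neg _ hn, ofPowerSeries_coeff_of_neg _ hn, mul_zero]

/-- `Δ` is `q` times the 24th power of the Euler product. -/
theorem deltaSeries_eq_euler :
    RED.deltaSeries C = HahnSeries.single (1 : ℤ) 1 * HahnSeries.ofPowerSeries ℤ C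
      (eulerC C ^ 24) := by
  rw [RED.deltaSeries, dedekindEtaUnit, map_pow]
  rfl

/-- **The product of the branches of `Δ (l τ)`.** -/
theorem deltaSeries_norm {l : ℕ} [NeZero l] (hl : l.Prime) {ζ : Cˣ}
    (hζ : IsPrimitiveRoot (ζ : C) l) :
    qExpand C l (qExpand C l (RED.deltaSeries C)) *
        ∏ i : Fin l, RED.twist (ζ ^ (i : ℕ)) (RED.deltaSeries C) =
      algebraMap C (LaurentSeries C) (∏ i : Fin l, (ζ : C) ^ (i : ℕ)) *
        qExpand C l (RED.deltaSeries C) ^ (l + 1) := by
  have : NeZero (l * l) := ⟨mul_ne_zero hl.ne_zero hl.ne_zero⟩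
  set P := eulerC C ^ 24
  -- each twist is a monomial times a rescaled product
  have e1 : ∀ i : Fin l, RED.twist (ζ ^ (i : ℕ)) (RED.deltaSeries C) =
      HahnSeries.single (1 : ℤ) ((ζ : C) ^ (i : ℕ)) *
        HahnSeries.ofPowerSeries ℤ C (rescale ((ζ : C) ^ (i : ℕ)) P) := fun i => by
    rw [deltaSeries_eq_euler, map_mul, twist_ofPowerSeries, Units.val_pow_eq_pow_val]
    congr 1
    ext n
    rcases eq_or_ne n 1 with rfl | hn
    · simp
    · simp [HahnSeries.coeff_single_of_ne hn]
  have e2 : ∏ i : Fin l, HahnSeries.single (1 : ℤ) ((ζ : C) ^ (i : ℕ)) =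
      HahnSeries.single (l : ℤ) (∏ i : Fin l, (ζ : C) ^ (i : ℕ)) := by
    have : ∀ s : Finset (Fin l), ∏ i ∈ s, HahnSeries.single (1 : ℤ) ((ζ : C) ^ (i : ℕ)) =
        HahnSeries.single (s.card : ℤ) (∏ i ∈ s, (ζ : C) ^ (i : ℕ)) := by
      intro s
      induction s using Finset.induction_on with
      | empty => simp
      | insert a s ha ih =>
        rw [Finset.prod_insert ha, Finset.prod_insert ha, ih, HahnSeries.single_mul_single,
          Finset.card_insert_of_notMem ha, Nat.cast_succ, add_comm]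
    simpa using this Finset.univ
  -- the norm of the Euler product is known
  have key := eulerC_norm (ζ := (ζ : C)) hl hζ
  have key24 : expand (l * l) (NeZero.ne _) P * ∏ i : Fin l, rescale ((ζ : C) ^ (i : ℕ)) P =
      expand l hl.ne_zero P ^ (l + 1) := by
    simp only [P, map_pow, Finset.prod_pow, ← mul_pow, key, ← pow_mul, mul_comm]
  -- collect the monomials and the products
  rw [Finset.prod_congr rfl fun i _ => e1 i, Finset.prod_mul_distrib, e2, qExpand_qExpand,
    deltaSeries_eq_euler, map_mul, map_mul, qExpand_single, qExpand_single, qExpand_ofPowerSeries,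
    qExpand_ofPowerSeries, ← map_prod, mul_mul_mul_comm, HahnSeries.single_mul_single, ← map_mul,
    key24, mul_pow, HahnSeries.single_pow, one_pow, ← map_pow, ← mul_assoc]
  congr 1
  · rw [algebraMap_laurentSeries_eq_single, HahnSeries.single_mul_single, zero_add,
      one_mul, mul_one]
    congr 1
    · push_cast
      ring
    · rw [mul_one]
  · simp only [P, map_pow]

end Laurent

end Fermat.BAD.Corr

end
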