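import Fermat.Agent.RED.Model.Generic
import Fermat.Agent.JAC.PicMaps

/-!
# Norms commute with reduction at the generic point of a component

`α : F → F'` is compatible with two expansions, and the residue fields `T ≤ T'` of the expansions
have the same degree as `α`.  Then a basis of `T'` over `T` lifts to a basis of `F'` over `F` in
which multiplication by a function defined at the generic point has entries defined there.
-/

set_option autoImplicit false

attribute [local instance 10000] SubalgebraClass.toAlgebra HahnSeries.powerSeriesAlgebra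

noncomputable section

open AlgebraicCurve IntermediateField

namespace Fermat.BAD.Corr

open Fermat.RED.Model

variable {L : Type*} [Field L] {A : ValuationSubring L}
variable {k : Type*} [Field k] (π : A →+* k)
variable {F : Type*} [Field F] [Algebra L F] (ι : F →+* LaurentSeries L)

/-- An expansion with residue field `T` at which every function can be normalised. -/
structure Comp (T : IntermediateField k (LaurentSeries k)) : Prop where
  /-- Integral expansions reduce into `T`. -/
  mem : ∀ f, ι f ∈ intSeries A → redF π ι f ∈ T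
  /-- Every nonzero function has a scalar multiple of nonzero reduction. -/
  prim : ∀ f : F, f ≠ 0 → ∃ c : L, c ≠ 0 ∧ c • f ∈ gInt π ι ∧ gRed π ι (c • f) ≠ 0
  /-- Constants expand as constants. -/
  const : ∀ c : L, ι (algebraMap L F c) = algebraMap L (LaurentSeries L) c
  /-- Every element of `T` is a reduction. -/
  onto : ∀ z ∈ T, ∃ f ∈ gInt π ι, gRed π ι f = z

variable {π ι} {T : IntermediateField k (LaurentSeries k)}

namespace Comp

/-- Reductions lie in the residue field. -/
theorem gRed_mem_target (h : Comp π ι T) (f : F) : gRed π ι f ∈ T :=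
  gRed_mem (K := T.toSubfield) h.mem f

/-- Integral multiples stay defined at the generic point, and reduce semilinearly. -/
theorem smul_mem (h : Comp π ι T) {c : L} (hc : c ∈ A) {f : F} (hf : f ∈ gInt π ι) :
    c • f ∈ gInt π ι ∧ gRed π ι (c • f) = algebraMap k _ (π ⟨c, hc⟩) * gRed π ι f := by
  have hi : ι (algebraMap L F c) ∈ intSeries A := by
    rw [h.const]; exact algebraMap_mem_intSeries hc
  rw [Algebra.smul_def]
  refine ⟨mul_mem (mem_gInt_of_int hi) hf, ?_⟩
  rw [gRed_mul (mem_gInt_of_int hi) hf, gRed_of_int hi, redF_of_mem hi, ← redHom_algebraMap π hc]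
  congr 2
  exact Subtype.ext (h.const c)

/-- The functions defined at the generic point form a valuation ring. -/
theorem mem_or_inv_mem (h : Comp π ι T) (f : F) : f ∈ gInt π ι ∨ f⁻¹ ∈ gInt π ι := by
  rcases eq_or_ne f 0 with rfl | hf
  · exact Or.inl (zero_mem _)
  obtain ⟨c, hc, hm, hne⟩ := h.prim f hf
  rcases A.mem_or_inv_mem c with hA | hA
  · right
    have := inv_mem_gInt hm hne
    rw [show f⁻¹ = c • (c • f)⁻¹ by
      rw [Algebra.smul_def, Algebra.smul_def, mul_inv, ← mul_assoc,
        mul_inv_cancel₀ ((_root_.map_ne_zero _).mpr hc), one_mul]]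
    exact (h.smul_mem hA this.1).1
  · left
    rw [show f = c⁻¹ • (c • f) by rw [smul_smul, inv_mul_cancel₀ hc, one_smul]]
    exact (h.smul_mem hA hm).1

/-- Among finitely many elements, not all zero, one has the largest value. -/
theorem exists_max (h : Comp π ι T) {α : Type*} [Fintype α] (c : α → F) (hc : ∃ i, c i ≠ 0) :
    ∃ j, c j ≠ 0 ∧ ∀ i, c i / c j ∈ gInt π ι := by
  classical
  let V : ValuationSubring F := { gInt π ι with mem_or_inv_mem' := h.mem_or_inv_mem }
  obtain ⟨i0, hi0⟩ := hc
  obtain ⟨j, -, hj⟩ := Finset.exists_max_image Finset.univ (fun i => V.valuation (c i))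
    ⟨i0, Finset.mem_univ _⟩
  have hj0 : c j ≠ 0 := fun e => hi0 (by
    have := hj i0 (Finset.mem_univ _)
    rw [e, map_zero] at this
    simpa using le_antisymm this zero_le)
  refine ⟨j, hj0, fun i => ?_⟩
  change c i / c j ∈ V
  rw [← V.valuation_le_one_iff, map_div₀,
    div_le_one₀ (zero_lt_iff.mpr ((_root_.map_ne_zero _).mpr hj0))]
  exact hj i (Finset.mem_univ _)

/-- The reduction as a ring homomorphism. -/
def hom (h : Comp π ι T) : gInt π ι →+* T where
  toFun f := ⟨gRed π ι f, h.gRed_mem_target f⟩
  map_one' := Subtype.ext gRed_one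
  map_zero' := Subtype.ext gRed_zero
  map_mul' f g := Subtype.ext (gRed_mul f.2 g.2)
  map_add' f g := Subtype.ext (gRed_add f.2 g.2)

/-- `hom` is `gRed`. -/
theorem coe_hom (h : Comp π ι T) (f : gInt π ι) : (h.hom f : LaurentSeries k) = gRed π ι f := rfl

end Comp

variable {F' : Type*} [Field F'] [Algebra L F'] {ι' : F' →+* LaurentSeries L}
  {T' : IntermediateField k (LaurentSeries k)}

/-- An embedding compatible with the expansions preserves `gInt` and `gRed`. -/
theorem map_gInt {α : F →ₐ[L] F'} (hα : ∀ f, ι' (α f) = ι f) {f : F} (hf : f ∈ gInt π ι) :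
    α f ∈ gInt π ι' ∧ gRed π ι' (α f) = gRed π ι f :=
  gRed_transfer α.toRingHom hα hf

/-- **Norms commute with reduction**, when the residue degree is the degree. -/
theorem gRed_normAlong (h : Comp π ι T) (h' : Comp π ι' T') (α : F →ₐ[L] F')
    (hα : ∀ f, ι' (α f) = ι f) (hle : T ≤ T') (hd : 0 < finrankAlong k (inclusion hle))
    (hdeg : finrankAlong k (inclusion hle) = finrankAlong L α) {g : F'} (hg : g ∈ gInt π ι') :
    JAC.normAlong α g ∈ gInt π ι ∧ gRed π ι (JAC.normAlong α g) =
      (JAC.normAlong (inclusion hle) ⟨gRed π ι' g, h'.gRed_mem_target g⟩ : LaurentSeries k) := by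
  classical
  let : Algebra F F' := algebraAlong α
  let : Algebra T T' := algebraAlong (inclusion hle)
  have : Module.Finite T T' := Module.finite_of_finrank_pos hd
  have : Module.Finite F F' := Module.finite_of_finrank_pos
    (show 0 < finrankAlong L α from hdeg ▸ hd)
  set n := Module.finrank T T'
  set B := Module.finBasis T T'
  choose b hb hbz using fun i => h'.onto (B i : LaurentSeries k) (B i).2
  -- integral combinations of the lifts reduce to combinations of the basis
  have hcomb : ∀ e : Fin n → F, (∀ i, e i ∈ gInt π ι) →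
      ∃ hm : ∑ i, e i • b i ∈ gInt π ι', gRed π ι' (∑ i, e i • b i) =
        ((∑ i, (⟨gRed π ι (e i), h.gRed_mem_target _⟩ : T) • B i : T') : LaurentSeries k) := by
    intro e he
    have hm : ∀ i, e i • b i ∈ gInt π ι' := fun i => mul_mem (map_gInt hα (he i)).1 (hb i)
    refine ⟨sum_mem fun i _ => hm i, ?_⟩
    rw [gRed_sum _ fun i _ => hm i, AddSubmonoidClass.coe_finsetSum]
    refine Finset.sum_congr rfl fun i _ => ?_
    change gRed π ι' (α (e i) * b i) = _
    rw [gRed_mul (map_gInt hα (he i)).1 (hb i), (map_gInt hα (he i)).2, hbz]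
    rfl
  -- the residues of a relation of the residues vanish
  have hzero : ∀ e : Fin n → F, (∀ i, e i ∈ gInt π ι) → gRed π ι' (∑ i, e i • b i) = 0 →
      ∀ i, gRed π ι (e i) = 0 := fun e he h0 i => by
    obtain ⟨-, h1⟩ := hcomb e he
    exact congrArg Subtype.val
      (Fintype.linearIndependent_iff.mp B.linearIndependent _ (Subtype.ext (h1.symm.trans h0)) i)
  -- the lifts are independent in the strong sense
  have hint : ∀ c : Fin n → F, ∑ i, c i • b i ∈ gInt π ι' → ∀ i, c i ∈ gInt π ι := by
    intro c hx i
    by_contra hi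
    obtain ⟨j, hj0, hj⟩ := h.exists_max c ⟨i, fun e => hi (e ▸ zero_mem _)⟩
    have hjn : c j ∉ gInt π ι := fun hm => hi (by
      rw [show c i = c i / c j * c j from (div_mul_cancel₀ _ hj0).symm]
      exact mul_mem (hj i) hm)
    have hinv : (c j)⁻¹ ∈ gInt π ι := (h.mem_or_inv_mem (c j)).resolve_left hjn
    have hr0 : gRed π ι (c j)⁻¹ = 0 := by
      by_contra hne
      have := (inv_mem_gInt hinv hne).1
      rw [inv_inv] at this
      exact hjn this
    have hsum : ∑ i, (c i / c j) • b i = α (c j)⁻¹ * ∑ i, c i • b i := by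
      rw [Finset.mul_sum]
      refine Finset.sum_congr rfl fun i _ => ?_
      change α (c i / c j) * b i = α (c j)⁻¹ * (α (c i) * b i)
      rw [map_div₀, map_inv₀]
      ring
    have h2 := hzero (fun i => c i / c j) hj (by
      rw [hsum, gRed_mul (map_gInt hα hinv).1 hx, (map_gInt hα hinv).2, hr0, zero_mul]) j
    simp only [div_self hj0, gRed_one] at h2
    exact one_ne_zero h2
  have hli : LinearIndependent F b := by
    rw [Fintype.linearIndependent_iff]
    intro c hc i
    by_contra hi
    obtain ⟨j, hj0, hj⟩ := h.exists_max c ⟨i, hi⟩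
    have hsum : ∑ i, (c i / c j) • b i = 0 := by
      rw [← smul_zero (c j)⁻¹, ← hc, Finset.smul_sum]
      refine Finset.sum_congr rfl fun i _ => ?_
      rw [smul_smul, div_eq_inv_mul]
    have h2 := hzero (fun i => c i / c j) hj (by rw [hsum, gRed_zero]) j
    simp only [div_self hj0, gRed_one] at h2
    exact one_ne_zero h2
  have hcard : Fintype.card (Fin n) = Module.finrank F F' := by
    rw [Fintype.card_fin]; exact hdeg
  have : Nonempty (Fin n) := ⟨⟨0, hd⟩⟩
  set Bb := basisOfLinearIndependentOfCardEqFinrank hli hcard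
  have hBb : ∀ i, Bb i = b i := fun i =>
    congrFun (coe_basisOfLinearIndependentOfCardEqFinrank hli hcard) i
  set M := Algebra.leftMulMatrix Bb g
  have hcol : ∀ j, ∑ i, M i j • b i = g * b j := fun j => by
      rw [← hBb j]
      refine Eq.trans ?_ (Bb.sum_repr (g * Bb j))
      exact Finset.sum_congr rfl
        fun i _ => by
          rw [show M i j = Bb.repr (g * Bb j) i from Algebra.leftMulMatrix_eq_repr_mul Bb g i j];
          simp only [hBb]
  have hM : ∀ i j, M i j ∈ gInt π ι := by
    intro i j
    refine hint (fun i => M i j) ?_ i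
    rw [hcol j]; exact mul_mem hg (hb j)
  set M0 : Matrix (Fin n) (Fin n) (gInt π ι) := fun i j => ⟨M i j, hM i j⟩
  have hN : JAC.normAlong α g = ((M0.det : gInt π ι) : F) := by
    change Algebra.norm F g = _
    rw [Algebra.norm_eq_matrix_det Bb]
    exact ((gInt π ι).subtype.map_det M0).symm
  rw [hN]
  refine ⟨(M0.det).2, ?_⟩
  rw [← h.coe_hom, h.hom.map_det]
  refine congrArg Subtype.val ?_
  change _ = Algebra.norm T _
  rw [Algebra.norm_eq_matrix_det B]
  congr 1
  ext1 i j
  rw [RingHom.mapMatrix_apply, Matrix.map_apply, Algebra.leftMulMatrix_eq_repr_mul]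
  obtain ⟨_, he⟩ := hcomb (fun i => M i j) fun i => hM i j
  rw [hcol j, gRed_mul hg (hb j), hbz] at he
  have h2 : (⟨gRed π ι' g, h'.gRed_mem_target g⟩ : T') * B j =
      ∑ i, (⟨gRed π ι (M i j), h.gRed_mem_target _⟩ : T) • B i := Subtype.ext he
  rw [h2, B.repr_sum_self]
  rfl

end Fermat.BAD.Corr

end
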