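import Fermat.Agent.BAD.Corr.NormRed
import Fermat.Agent.RED.Reduction.Hom

/-!
# The reduction of a correspondence given by `q ↦ q ^ l`

The correspondence `α_* β^*` reduces to the correspondence of the residue fields, on functions
through the norm (`gRed_norm_beta`) and on divisors of degree zero through the reduction of places
(`mapDomain_tbar`, `class_tbar`). `Corr/X0` specialises to `T_l` on `X₀`.
-/

set_option autoImplicit false

attribute [local instance 10000] SubalgebraClass.toAlgebra HahnSeries.powerSeriesAlgebra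

noncomputable section

open AlgebraicCurve IntermediateField ModularCurve

namespace Fermat.BAD.Corr

open Fermat.RED.Model Fermat.FF

variable {L : Type*} [Field L] {A : ValuationSubring L}
variable {k : Type*} [Field k] {π : A →+* k}
variable {F : Type*} [Field F] [Algebra L F] {ι : F →+* LaurentSeries L}
variable {F' : Type*} [Field F'] [Algebra L F'] {ι' : F' →+* LaurentSeries L}
variable {T T' : IntermediateField k (LaurentSeries k)} (l : ℕ) [NeZero l]

/-- `q ↦ q ^ l` between residue fields. -/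
def betaT (h : ∀ z ∈ T, qExpand k l z ∈ T') : T →ₐ[k] T' :=
  ((qExpandAlgHomC k l).comp T.val).codRestrict T'.toSubalgebra fun z => h z z.2

/-- An embedding expanding as `q ↦ q ^ l` keeps integrality, and its reduction expands in the
same way. -/
theorem map_gInt_beta {β : F →ₐ[L] F'} (hβ : ∀ f, ι' (β f) = qExpand L l (ι f)) {f : F}
    (hf : f ∈ gInt π ι) :
    β f ∈ gInt π ι' ∧ gRed π ι' (β f) = qExpand k l (gRed π ι f) := by
  have hi : ∀ f : F, ι f ∈ intSeries A → ι' (β f) ∈ intSeries A ∧
      redF π ι' (β f) = qExpand k l (redF π ι f) := fun f hf => by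
    obtain ⟨y, hy⟩ := id hf
    have h1 : ι' (β f) ∈ intSeries A :=
      ⟨qExpand A l y, by rw [ModularCurve.coeffMap_qExpand, hy, hβ]⟩
    refine ⟨h1, ?_⟩
    rw [redF_of_mem h1, redF_of_mem hf]
    have e1 : (⟨ι' (β f), h1⟩ : intSeries A) = ⟨coeffMap A.subtype (qExpand A l y), ⟨_, rfl⟩⟩ :=
      Subtype.ext ((hβ f).trans
        ((congrArg (qExpand L l) hy.symm).trans (ModularCurve.coeffMap_qExpand A.subtype l y).symm))
    have e2 : (⟨ι f, hf⟩ : intSeries A) = ⟨coeffMap A.subtype y, ⟨_, rfl⟩⟩ := Subtype.ext hy.symm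
    rw [e1, e2]
    exact (redHom_coeffMap π _ _).trans ((ModularCurve.coeffMap_qExpand π l y).trans
      (congrArg (qExpand k l) (redHom_coeffMap π y _).symm))
  obtain ⟨g, u, hg, hu, hu0, e⟩ := hf
  have hq : IsGQuot π ι' (β f) (β g) (β u) := ⟨(hi g hg).1, (hi u hu).1, by
    rw [(hi u hu).2]; exact (_root_.map_ne_zero _).mpr hu0, by rw [← map_mul, e]⟩
  refine ⟨hq.mem, ?_⟩
  rw [hq.gRed_eq, IsGQuot.gRed_eq ⟨hg, hu, hu0, e⟩, (hi g hg).2, (hi u hu).2, map_div₀]

variable (hle : T ≤ T') (hmap : ∀ z ∈ T, qExpand k l z ∈ T')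

/-- The norm of the reduced correspondence. -/
def nbar (z : T) : T := JAC.normAlong (inclusion hle) (betaT l hmap z)

/-- **The norm of the correspondence reduces to that of the reduced one.** -/
theorem gRed_norm_beta (h : Comp π ι T) (h' : Comp π ι' T') {α β : F →ₐ[L] F'}
    (hα : ∀ f, ι' (α f) = ι f) (hβ : ∀ f, ι' (β f) = qExpand L l (ι f))
    (hd : 0 < finrankAlong k (inclusion hle))
    (hdeg : finrankAlong k (inclusion hle) = finrankAlong L α) {f : F} (hf : f ∈ gInt π ι) :
    JAC.normAlong α (β f) ∈ gInt π ι ∧ gRed π ι (JAC.normAlong α (β f)) =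
      (nbar l hle hmap ⟨gRed π ι f, h.gRed_mem_target f⟩ : LaurentSeries k) := by
  obtain ⟨hm, hr⟩ := map_gInt_beta (π := π) l hβ hf
  obtain ⟨h1, h2⟩ := gRed_normAlong h h' α hα hle hd hdeg hm
  refine ⟨h1, h2.trans ?_⟩
  have e : (⟨gRed π ι' (β f), h'.gRed_mem_target _⟩ : T') =
      betaT l hmap ⟨gRed π ι f, h.gRed_mem_target f⟩ :=
    Subtype.ext hr
  rw [e]
  rfl

section Divisors

variable [IsAlgClosed k] [IsFunctionField k T] [IsFunctionField k T']

/-- The correspondence of the residue fields on divisors. -/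
def tbar : Divisor k T →+ Divisor k T :=
  (JAC.pushDiv (inclusion hle)).comp (JAC.pullDiv (betaT l hmap))

/-- The divisor of the norm is the image of the divisor. -/
theorem tbar_divOf {z : T} (hz : z ≠ 0) :
    tbar l hle hmap (divOf k z) = divOf k (nbar l hle hmap z) := by
  rw [tbar, AddMonoidHom.comp_apply, JAC.pullDiv_divOf,
    JAC.pushDiv_divOf _ ((_root_.map_ne_zero _).mpr hz)]
  rfl

/-- `tbar` multiplies degrees by the degree of `q ↦ q ^ l`. -/
theorem degree_tbar (D : Divisor k T) :
    Divisor.degree (tbar l hle hmap D) =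
      (finrankAlong k (betaT l hmap) : ℤ) * Divisor.degree D := by
  rw [tbar, AddMonoidHom.comp_apply, JAC.degree_pushDiv, JAC.degree_pullDiv]

/-- `tbar` preserves degree zero. -/
theorem tbar_mem_degZero {D : Divisor k T} (hD : D ∈ Divisor.degZero (K := k) (F := T)) :
    tbar l hle hmap D ∈ Divisor.degZero (K := k) (F := T) := by
  rw [Divisor.mem_degZero, degree_tbar, Divisor.mem_degZero.mp hD, mul_zero]

/-- The correspondence of the residue fields on classes. -/
def tbarPic : Pic0 k T →+ Pic0 k T :=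
  (JAC.pushPic (inclusion hle)).comp (JAC.pullPic (betaT l hmap))

/-- `tbarPic` on the class of a divisor. -/
theorem tbarPic_mk (D : Divisor.degZero (K := k) (F := T))
    (h : tbar l hle hmap (D : Divisor k T) ∈ Divisor.degZero (K := k) (F := T)) :
    tbarPic l hle hmap (Pic0.mk D) = Pic0.mk ⟨tbar l hle hmap (D : Divisor k T), h⟩ := by
  have hpull : JAC.pullDiv (betaT l hmap) (D : Divisor k T) ∈ Divisor.degZero := by
    rw [Divisor.mem_degZero, JAC.degree_pullDiv, Divisor.mem_degZero.mp D.2, mul_zero]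
  rw [tbarPic, AddMonoidHom.comp_apply, JAC.pullPic_mk _ D hpull]
  exact JAC.pushPic_mk _ ⟨_, hpull⟩ h

end Divisors

section Reduction

variable [IsAlgClosed L] [IsAlgClosed k] [IsFunctionField k T] [IsFunctionField k T']
variable {S : IntermediateField L (LaurentSeries L)} [IsFunctionField L S] [IsFunctionField L F']
variable {r : Place L S → Place k T}

/-- **Reduction of places turns the correspondence into the reduced one.** -/
theorem mapDomain_tbar (hr : Fermat.RED.IsSeriesReduction A π S T r)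
    (hdiv : Fermat.RED.PicDivisible L S) (h : Comp π S.val.toRingHom T) (h' : Comp π ι' T')
    {α β : S →ₐ[L] F'} (hα : ∀ f, ι' (α f) = (f : LaurentSeries L))
    (hβ : ∀ f, ι' (β f) = qExpand L l (f : LaurentSeries L))
    (hd : 0 < finrankAlong k (inclusion hle))
    (hdeg : finrankAlong k (inclusion hle) = finrankAlong L α)
    {D : Divisor L S} (hD : Divisor.degree D = 0) :
    Finsupp.mapDomain r (JAC.pushDiv α (JAC.pullDiv β D)) =
      tbar l hle hmap (Finsupp.mapDomain r D) := by
  let μ := Finsupp.mapDomain.addMonoidHom (M := ℤ) r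
  let δ : Divisor L S →+ Divisor k T :=
    μ.comp ((JAC.pushDiv α).comp (JAC.pullDiv β)) - (tbar l hle hmap).comp μ
  -- it suffices to compare the two on divisors of functions with nonzero reduction
  refine sub_eq_zero.mp (hr.map_eq_zero_of_degree_zero hdiv δ ?_ hD)
  rintro E ⟨y, hy, hyk, hne, hE⟩
  set f : S := ⟨coeffMap A.subtype y, hy⟩
  have hint : S.val.toRingHom f ∈ intSeries A := ⟨y, rfl⟩
  have hf : f ≠ 0 := fun h0 => hne (by
    rw [show y = 0 from coeffMap_subtype_injective A
      ((congrArg Subtype.val h0).trans (map_zero (coeffMap A.subtype)).symm), map_zero])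
  have hred : redF π S.val.toRingHom f = coeffMap π y :=
    (redF_of_mem hint).trans (redHom_coeffMap π y hint)
  obtain ⟨hN, hNr⟩ := gRed_norm_beta l hle hmap h h' hα hβ hd hdeg (mem_gInt_of_int (π := π) hint)
  set z : T := ⟨coeffMap π y, hyk⟩
  have hzeq : (⟨gRed π S.val.toRingHom f, h.gRed_mem_target f⟩ : T) = z :=
    Subtype.ext ((gRed_of_int hint).trans hred)
  rw [hzeq] at hNr
  have hz : z ≠ 0 := fun h0 => hne (congrArg Subtype.val h0)
  set nz := nbar l hle hmap z
  have hnz : nz ≠ 0 := JAC.normAlong_ne_zero _ ((_root_.map_ne_zero _).mpr hz)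
  have hEf : E = divOf L f := Finsupp.ext fun P => (hE P).trans (divOf_apply f P).symm
  have hEz : Finsupp.mapDomain r E = divOf k z :=
    Finsupp.ext fun Q => (hr.compat y hy hyk hne E hE Q).trans (divOf_apply z Q).symm
  refine sub_eq_zero.mpr (Finsupp.ext fun Q => ?_)
  change Finsupp.mapDomain r (JAC.pushDiv α (JAC.pullDiv β E)) Q =
    tbar l hle hmap (Finsupp.mapDomain r E) Q
  rw [hEz, tbar_divOf l hle hmap hz, hEf, JAC.pullDiv_divOf,
    JAC.pushDiv_divOf α ((_root_.map_ne_zero _).mpr hf)]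
  set g := JAC.normAlong α (β f)
  have hg : g ≠ 0 := JAC.normAlong_ne_zero _ ((_root_.map_ne_zero _).mpr hf)
  -- the norm is `a / u` with integral expansions, whose divisors reduce to those of the reductions
  obtain ⟨a, u, ha, hu, hu0, e⟩ := id hN
  have ha0 : redF π S.val.toRingHom a ≠ 0 := fun h0 => hnz (Subtype.ext (by
    rw [← hNr, IsGQuot.gRed_eq ⟨ha, hu, hu0, e⟩, h0, zero_div]; rfl))
  have hmapdiv : ∀ (v : S) (hv : S.val.toRingHom v ∈ intSeries A)
      (hv0 : redF π S.val.toRingHom v ≠ 0),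
      Finsupp.mapDomain r (divOf L v) = divOf k (⟨_, h.mem v hv⟩ : T) := fun v hv hv0 => by
    obtain ⟨yv, hyv⟩ := id hv
    have hy' : coeffMap A.subtype yv = (v : LaurentSeries L) := hyv
    have hr' : redF π S.val.toRingHom v = coeffMap π yv := by
      rw [redF_of_mem hv, ← redHom_coeffMap π yv ⟨yv, rfl⟩]
      exact congrArg _ (Subtype.ext hy'.symm)
    refine Finsupp.ext fun Q => ?_
    rw [divOf_apply, hr.compat yv (hy' ▸ v.2) (hr' ▸ h.mem v hv) (hr' ▸ hv0) (divOf L v)
      (fun P => (divOf_apply v P).trans (congrArg P.ord (Subtype.ext hy'.symm)))]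
    exact congrArg Q.ord (Subtype.ext hr'.symm)
  have hu_ne : u ≠ 0 := fun h0 => hu0 (by rw [h0, redF_zero])
  have hdg : divOf L g = divOf L a - divOf L u := by
    refine Finsupp.ext fun P => ?_
    rw [Finsupp.sub_apply, divOf_apply, divOf_apply, divOf_apply, ← e, P.ord_mul hg hu_ne]
    ring
  rw [hdg, ← Finsupp.mapDomain.addMonoidHom_apply, map_sub, Finsupp.mapDomain.addMonoidHom_apply,
    Finsupp.mapDomain.addMonoidHom_apply, hmapdiv a ha ha0, hmapdiv u hu hu0, Finsupp.sub_apply,
    divOf_apply, divOf_apply, divOf_apply]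
  have hnzu : nz * ⟨_, h.mem u hu⟩ = ⟨_, h.mem a ha⟩ := Subtype.ext (by
    change (nz : LaurentSeries k) * _ = _
    rw [← hNr, IsGQuot.gRed_eq ⟨ha, hu, hu0, e⟩, div_mul_cancel₀ _ hu0])
  rw [← hnzu, Q.ord_mul hnz fun h0 => hu0 (congrArg Subtype.val h0)]
  ring

/-- The same between two subfields of series, on classes. -/
theorem class_tbar {S' : IntermediateField L (LaurentSeries L)} [IsFunctionField L S']
    (hr : Fermat.RED.IsSeriesReduction A π S T r)
    (hdiv : Fermat.RED.PicDivisible L S) (h : Comp π S.val.toRingHom T)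
    (h' : Comp π S'.val.toRingHom T')
    {α β : S →ₐ[L] S'} (hα : ∀ f, (α f : LaurentSeries L) = (f : LaurentSeries L))
    (hβ : ∀ f, (β f : LaurentSeries L) = qExpand L l (f : LaurentSeries L))
    (hd : 0 < finrankAlong k (inclusion hle))
    (hdeg : finrankAlong k (inclusion hle) = finrankAlong L α)
    (D : Divisor.degZero (K := L) (F := S))
    (h1 : Finsupp.mapDomain r (JAC.pushDiv α (JAC.pullDiv β (D : Divisor L S))) ∈
      Divisor.degZero (K := k) (F := T))
    (h2 : Finsupp.mapDomain r (D : Divisor L S) ∈ Divisor.degZero (K := k) (F := T)) :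
    Pic0.mk ⟨_, h1⟩ = tbarPic l hle hmap (Pic0.mk ⟨_, h2⟩) := by
  rw [tbarPic_mk l hle hmap ⟨_, h2⟩ (tbar_mem_degZero l hle hmap h2)]
  exact congrArg Pic0.mk (Subtype.ext (mapDomain_tbar (ι' := S'.val.toRingHom) l hle hmap hr hdiv h
    h' hα hβ hd hdeg (Divisor.mem_degZero.mp D.2)))

end Reduction

section Sub

variable {S S' : IntermediateField L (LaurentSeries L)}

/-- The norm between two subfields of series. -/
theorem gRed_norm_sub (h : Comp π S.val.toRingHom T) (h' : Comp π S'.val.toRingHom T')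
    {α β : S →ₐ[L] S'} (hα : ∀ f, (α f : LaurentSeries L) = (f : LaurentSeries L))
    (hβ : ∀ f, (β f : LaurentSeries L) = qExpand L l (f : LaurentSeries L))
    (hd : 0 < finrankAlong k (inclusion hle))
    (hdeg : finrankAlong k (inclusion hle) = finrankAlong L α) {f : S}
    (hf : f ∈ gInt π S.val.toRingHom) :
    JAC.normAlong α (β f) ∈ gInt π S.val.toRingHom ∧
      gRed π S.val.toRingHom (JAC.normAlong α (β f)) =
      (nbar l hle hmap ⟨gRed π S.val.toRingHom f, h.gRed_mem_target f⟩ : LaurentSeries k) :=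
  gRed_norm_beta (ι' := S'.val.toRingHom) l hle hmap h h' hα hβ hd hdeg hf

end Sub

end Fermat.BAD.Corr

end
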